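import Mathlib
import Fermat.Prelude.Def_FLTPrelim_FreyPackage
import Fermat.Prelude.Def_FLTPrelim_GaloisRep
import Fermat.Prelude.Def_FLTPrelim_Modularity
import Fermat.Prelude.Def_FLTPrelim_ModularRep
import Fermat.Prelude.Def_FLTPrelim_Ramification
import Fermat.Prelude.Def_FreyPackage_IsConductorLevel

set_option autoImplicit false
open WeierstrassCurve WeierstrassCurve.Affine WeierstrassCurve.Affine.Point
open CuspForm ModularFormClass UpperHalfPlane
open FreyPackage

namespace Fermat.Agent.S45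

/-- Descent: from a conductor level `N` carrying a modular representation, strip all primes
other than `2` using the two level-lowering inputs. -/
theorem descent_to_dvd_two (P : FreyPackage)
    (hirr : GaloisRepIsIrreducible (K := AlgebraicClosure ℚ) ℚ P.freyCurve P.p)
    (h05 : ∀ {q : ℕ}, q.Prime → q ≠ 2 → q ≠ P.p → P.GaloisRepUnramifiedAt q)
    (h43 : ∀ {N q : ℕ}, P.IsConductorLevel N → q.Prime → q ≠ 2 → q ≠ P.p → q ∣ N →
      GaloisRepIsIrreducible (K := AlgebraicClosure ℚ) ℚ P.freyCurve P.p →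
      P.ModularRepOfLevel N → P.GaloisRepUnramifiedAt q →
      ∃ M : ℕ, M ∣ N ∧ ¬ q ∣ M ∧ P.ModularRepOfLevel M)
    (h44 : ∀ {N : ℕ}, P.IsConductorLevel N → P.p ∣ N →
      GaloisRepIsIrreducible (K := AlgebraicClosure ℚ) ℚ P.freyCurve P.p →
      P.ModularRepOfLevel N →
      ∃ M : ℕ, M ∣ N ∧ ¬ P.p ∣ M ∧ P.ModularRepOfLevel M) :
    ∀ N : ℕ, P.IsConductorLevel N → P.ModularRepOfLevel N →
      ∃ M : ℕ, (M = 1 ∨ M = 2) ∧ P.ModularRepOfLevel M := by
  intro N
  induction N using Nat.strong_induction_on with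
  | _ N ih =>
    intro hcond hmod
    by_cases hp : P.p ∣ N
    · obtain ⟨M, hMN, hpM, hM⟩ := h44 hcond hp hirr hmod
      have hMpos : 0 < M := Nat.pos_of_dvd_of_pos hMN hcond.pos
      have hlt : M < N := by
        rcases (Nat.le_of_dvd hcond.pos hMN).lt_or_eq with h | h
        · exact h
        · exact absurd (h ▸ hp) hpM
      exact ih M hlt (hcond.of_dvd hMN hMpos) hM
    · by_cases hq : ∃ q : ℕ, q.Prime ∧ q ≠ 2 ∧ q ∣ N
      · obtain ⟨q, hqp, hq2, hqN⟩ := hq
        have hqP : q ≠ P.p := fun h => hp (h ▸ hqN)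
        obtain ⟨M, hMN, hqM, hM⟩ := h43 hcond hqp hq2 hqP hqN hirr hmod (h05 hqp hq2 hqP)
        have hMpos : 0 < M := Nat.pos_of_dvd_of_pos hMN hcond.pos
        have hlt : M < N := by
          rcases (Nat.le_of_dvd hcond.pos hMN).lt_or_eq with h | h
          · exact h
          · exact absurd (h ▸ hqN) hqM
        exact ih M hlt (hcond.of_dvd hMN hMpos) hM
      · refine ⟨N, ?_, hmod⟩
        have hN0 : N ≠ 0 := hcond.pos.ne'
        have h2 : ∀ {q : ℕ}, q.Prime → q ∣ N → q = 2 := fun {q} hqp hqN => by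
          by_contra h
          exact hq ⟨q, hqp, h, hqN⟩
        have hpow : N = 2 ^ N.primeFactorsList.length :=
          Nat.eq_prime_pow_of_unique_prime_dvd hN0 h2
        generalize N.primeFactorsList.length = k at hpow
        have hle : k ≤ 1 := by
          by_contra hgt
          have hk : 2 ≤ k := by omega
          have : 2 ^ 2 ∣ N := by
            rw [hpow]
            exact pow_dvd_pow 2 hk
          exact hcond.sq_not_dvd Nat.prime_two this
        interval_cases k
        · left; simpa using hpow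
        · right; simpa using hpow

/-- The full wiring: `S45` from the statements `S05`, `S06`, `S43`, `S44` (for the given package)
and `S08`. -/
theorem of_inputs (P : FreyPackage)
    (hirr : GaloisRepIsIrreducible (K := AlgebraicClosure ℚ) ℚ P.freyCurve P.p)
    (h05 : ∀ {q : ℕ}, q.Prime → q ≠ 2 → q ≠ P.p → P.GaloisRepUnramifiedAt q)
    (h06 : ∃ N : ℕ, P.IsConductorLevel N ∧ P.ModularRepOfLevel N)
    (h43 : ∀ {N q : ℕ}, P.IsConductorLevel N → q.Prime → q ≠ 2 → q ≠ P.p → q ∣ N →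
      GaloisRepIsIrreducible (K := AlgebraicClosure ℚ) ℚ P.freyCurve P.p →
      P.ModularRepOfLevel N → P.GaloisRepUnramifiedAt q →
      ∃ M : ℕ, M ∣ N ∧ ¬ q ∣ M ∧ P.ModularRepOfLevel M)
    (h44 : ∀ {N : ℕ}, P.IsConductorLevel N → P.p ∣ N →
      GaloisRepIsIrreducible (K := AlgebraicClosure ℚ) ℚ P.freyCurve P.p →
      P.ModularRepOfLevel N →
      ∃ M : ℕ, M ∣ N ∧ ¬ P.p ∣ M ∧ P.ModularRepOfLevel M)
    (h08 : ∀ f : CuspForm (CongruenceSubgroup.Gamma0 1) 2, f = 0) :
    ∃ f : CuspForm (CongruenceSubgroup.Gamma0 2) 2, f ≠ 0 := by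
  obtain ⟨N, hcond, hmod⟩ := h06
  obtain ⟨M, hM, hmodM⟩ := descent_to_dvd_two P hirr h05 h43 h44 N hcond hmod
  rcases hM with rfl | rfl
  · obtain ⟨f, -, -, hf, -⟩ := hmodM
    exact absurd (h08 f) hf.ne_zero
  · obtain ⟨f, -, -, hf, -⟩ := hmodM
    exact ⟨f, hf.ne_zero⟩

end Fermat.Agent.S45
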